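import Fermat.Agent.S14.Crossing.Field.Defs

/-!
# S14 / Crossing / block [C]: descending a character of `Gal(Ω/K)` to `Gal(E/K)` (leaf file: D5)
-/

set_option autoImplicit false
-- the section instances below are part of the (fixed) signatures even where a proof does not
-- need all of them
set_option linter.unusedSectionVars false

namespace Fermat.Agent.S14.Crossing

variable {K Ω : Type*} [Field K] [Field Ω] [Algebra K Ω] [FiniteDimensional K Ω] [IsGalois K Ω]

/-- (D5a) A homomorphism of `Gal(Ω/K)` which is trivial on `Gal(Ω/E)` descends to `Gal(E/K)`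
(`E/K` normal). -/
theorem exists_descend_hom {A : Type*} [Group A] (E : IntermediateField K Ω) [Normal K E]
    (φ : (Ω ≃ₐ[K] Ω) →* A) (hφ : E.fixingSubgroup ≤ φ.ker) :
    ∃ a : (E ≃ₐ[K] E) →* A, ∀ g : Ω ≃ₐ[K] Ω, a (AlgEquiv.restrictNormalHom E g) = φ g := by
  have hsurj : Function.Surjective
      (AlgEquiv.restrictNormalHom E : (Ω ≃ₐ[K] Ω) →* (E ≃ₐ[K] E)) :=
    AlgEquiv.restrictNormalHom_surjective Ω
  have hker : (AlgEquiv.restrictNormalHom E : (Ω ≃ₐ[K] Ω) →* (E ≃ₐ[K] E)).ker ≤ φ.ker := by
    rw [IntermediateField.restrictNormalHom_ker]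
    exact hφ
  refine ⟨(AlgEquiv.restrictNormalHom E : (Ω ≃ₐ[K] Ω) →* (E ≃ₐ[K] E)).liftOfRightInverse
    (Function.surjInv hsurj) (Function.rightInverse_surjInv hsurj) ⟨φ, hker⟩, fun g => ?_⟩
  exact MonoidHom.liftOfRightInverse_comp_apply _ _ (Function.rightInverse_surjInv hsurj)
    ⟨φ, hker⟩ g

/-- (D5b) The fixed field of a normal subgroup is Galois over the base; its fixing subgroup is the
subgroup; an automorphism restricting to the identity on it lies in the subgroup. -/
theorem isGalois_fixedField (B : Subgroup (Ω ≃ₐ[K] Ω)) [B.Normal] :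
    IsGalois K (IntermediateField.fixedField B) :=
  IsGalois.of_fixedField_normal_subgroup B

theorem fixingSubgroup_fixedField_eq (B : Subgroup (Ω ≃ₐ[K] Ω)) :
    (IntermediateField.fixedField B).fixingSubgroup = B :=
  IntermediateField.fixingSubgroup_fixedField B

theorem mem_of_restrictNormalHom_eq_one (B : Subgroup (Ω ≃ₐ[K] Ω))
    [Normal K (IntermediateField.fixedField B)] (g : Ω ≃ₐ[K] Ω)
    (hg : AlgEquiv.restrictNormalHom (IntermediateField.fixedField B) g = 1) : g ∈ B := by
  have h : g ∈ (AlgEquiv.restrictNormalHom (IntermediateField.fixedField B) :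
      (Ω ≃ₐ[K] Ω) →* _).ker := MonoidHom.mem_ker.mpr hg
  rw [IntermediateField.restrictNormalHom_ker, IntermediateField.fixingSubgroup_fixedField] at h
  exact h

theorem restrictNormalHom_eq_one_of_mem (B : Subgroup (Ω ≃ₐ[K] Ω))
    [Normal K (IntermediateField.fixedField B)] (g : Ω ≃ₐ[K] Ω) (hg : g ∈ B) :
    AlgEquiv.restrictNormalHom (IntermediateField.fixedField B) g = 1 := by
  have h : g ∈ (AlgEquiv.restrictNormalHom (IntermediateField.fixedField B) :
      (Ω ≃ₐ[K] Ω) →* _).ker := by
    rw [IntermediateField.restrictNormalHom_ker, IntermediateField.fixingSubgroup_fixedField]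
    exact hg
  exact MonoidHom.mem_ker.mp h

end Fermat.Agent.S14.Crossing
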