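import Fermat.Agent.S14.Crossing.Field.Defs
import Fermat.Agent.S14.Frob.Extra

/-!
# S14 / Crossing / block [C]: inertia groups surject under restriction (leaf file: T3)
-/

set_option autoImplicit false

namespace Fermat.Agent.S14.Crossing

open NumberField
open scoped Pointwise

variable (K M Ω : Type*) [Field K] [NumberField K] [Field M] [NumberField M]
  [Field Ω] [NumberField Ω] [Algebra K M] [Algebra M Ω] [Algebra K Ω] [IsScalarTower K M Ω]
  [IsGalois K Ω] [IsGalois K M] [IsGalois M Ω]

/-- (T3) Inertia surjects: every element of the inertia group of `P ∩ 𝓞 M` in `M/K` is the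
restriction of an element of the inertia group of `P` in `Ω/K`. -/
theorem exists_mem_inertia_restrictNormalHom_eq (P : Ideal (𝓞 Ω)) (hP : P.IsPrime) (hP0 : P ≠ ⊥)
    (g : M ≃ₐ[K] M) (hg : g ∈ (P.under (𝓞 M)).inertia (M ≃ₐ[K] M)) :
    ∃ g' ∈ P.inertia (Ω ≃ₐ[K] Ω), AlgEquiv.restrictNormalHom M g' = g :=
  Frob.exists_mem_inertia_restrictNormal_eq K M Ω P hP hP0 g hg

end Fermat.Agent.S14.Crossing
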