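import Fermat.Agent.S14.Crossing.Field.Tower
import Fermat.Agent.S14.Crossing.Field.TowerInertia

/-!
# S14 / Crossing / block [C]: descent of the `Ω`-level statement along a tower `K ⊆ M ⊆ Ω`
(assembly)
-/

set_option autoImplicit false

namespace Fermat.Agent.S14.Crossing

open NumberField
open scoped Pointwise

variable {p : ℕ} (K M Ω : Type*) [Field K] [NumberField K] [Field M] [NumberField M]
  [Field Ω] [NumberField Ω] [Algebra K M] [Algebra M Ω] [Algebra K Ω] [IsScalarTower K M Ω]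
  [IsGalois K Ω] [IsGalois K M] [IsGalois M Ω]

omit [IsGalois K Ω] [IsGalois K M] [IsGalois M Ω] [Algebra K M] [Algebra K Ω] [IsScalarTower K M Ω] [NumberField K] [Field K] in
theorem Descent.aux_natCast_mem_under (P : Ideal (𝓞 Ω)) (n : ℕ) :
    ((n : ℕ) : 𝓞 M) ∈ P.under (𝓞 M) ↔ ((n : ℕ) : 𝓞 Ω) ∈ P := by
  rw [Ideal.under_def, Ideal.mem_comap, map_natCast]

theorem descent (r : ℕ) (hr0 : r ≠ 0) (e : Ideal (𝓞 K) → ZMod p)
    (χ : (ZMod r)ˣ →* Multiplicative (ZMod p))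
    (aΩ bΩ : (Ω ≃ₐ[K] Ω) →* Multiplicative (ZMod p))
    (a b : (M ≃ₐ[K] M) →* Multiplicative (ZMod p))
    (ha : ∀ g, a (AlgEquiv.restrictNormalHom M g) = aΩ g)
    (hb : ∀ g, b (AlgEquiv.restrictNormalHom M g) = bΩ g)
    (hU : ∀ P : Ideal (𝓞 Ω), P.IsPrime → P ≠ ⊥ → ((r : ℕ) : 𝓞 Ω) ∉ P →
        UnramifiedAt K Ω P ∧
        ∀ g : Ω ≃ₐ[K] Ω, IsArithFrobAt (𝓞 K) g P →
          aΩ g = Multiplicative.ofAdd (e (P.under (𝓞 K))) ∧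
          ∀ u : (ZMod r)ˣ, (u : ZMod r) = (Nat.card (𝓞 K ⧸ P.under (𝓞 K)) : ZMod r) →
            bΩ g = χ u)
    (hR : ∀ P : Ideal (𝓞 Ω), P.IsPrime → ((r : ℕ) : 𝓞 Ω) ∈ P →
        (∀ g ∈ P.inertia (Ω ≃ₐ[K] Ω), aΩ g = 1) ∧ ∃ g ∈ P.inertia (Ω ≃ₐ[K] Ω), bΩ g ≠ 1) :
    (∀ Q : Ideal (𝓞 M), Q.IsPrime → Q ≠ ⊥ → ((r : ℕ) : 𝓞 M) ∉ Q →
        UnramifiedAt K M Q ∧
        ∀ g : M ≃ₐ[K] M, IsArithFrobAt (𝓞 K) g Q →
          a g = Multiplicative.ofAdd (e (Q.under (𝓞 K))) ∧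
          ∀ u : (ZMod r)ˣ, (u : ZMod r) = (Nat.card (𝓞 K ⧸ Q.under (𝓞 K)) : ZMod r) →
            b g = χ u) ∧
    (∀ Q : Ideal (𝓞 M), Q.IsPrime → ((r : ℕ) : 𝓞 M) ∈ Q →
        (∀ g ∈ Q.inertia (M ≃ₐ[K] M), a g = 1) ∧ ∃ g ∈ Q.inertia (M ≃ₐ[K] M), b g ≠ 1) := by
  refine ⟨?_, ?_⟩
  · intro Q hQ hQ0 hrQ
    obtain ⟨P, hP, rfl⟩ := exists_prime_under_eq M Ω Q hQ
    have hP0 : P ≠ ⊥ := by
      rintro rfl
      apply hQ0
      rw [Ideal.under_def]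
      exact Ideal.comap_bot_of_injective _ (FaithfulSMul.algebraMap_injective (𝓞 M) (𝓞 Ω))
    have hrP : ((r : ℕ) : 𝓞 Ω) ∉ P := fun h =>
      hrQ ((Descent.aux_natCast_mem_under M Ω P r).mpr h)
    obtain ⟨hunrP, hfrobP⟩ := hU P hP hP0 hrP
    have hunrQ : UnramifiedAt K M (P.under (𝓞 M)) := by
      unfold UnramifiedAt
      rw [Subgroup.eq_bot_iff_forall]
      intro g hg
      obtain ⟨g', hg'I, rfl⟩ := exists_mem_inertia_restrictNormalHom_eq K M Ω P hP hP0 g hg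
      unfold UnramifiedAt at hunrP
      rw [hunrP] at hg'I
      rw [Subgroup.mem_bot.mp hg'I, map_one]
    refine ⟨hunrQ, fun g hg => ?_⟩
    obtain ⟨g', hg'F, rfl⟩ :=
      exists_isArithFrobAt_restrictNormalHom_eq K M Ω P hP hP0 hunrQ g hg
    obtain ⟨h1, h2⟩ := hfrobP g' hg'F
    have hunder : (P.under (𝓞 M)).under (𝓞 K) = P.under (𝓞 K) := Ideal.under_under _
    rw [ha, hb, hunder]
    exact ⟨h1, h2⟩
  · intro Q hQ hrQ
    obtain ⟨P, hP, rfl⟩ := exists_prime_under_eq M Ω Q hQ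
    have hrP : ((r : ℕ) : 𝓞 Ω) ∈ P := (Descent.aux_natCast_mem_under M Ω P r).mp hrQ
    have hP0 : P ≠ ⊥ := by
      rintro rfl
      have h0 : ((r : ℕ) : 𝓞 Ω) = 0 := by simpa using hrP
      exact hr0 (by exact_mod_cast h0)
    obtain ⟨h1, g', hg'I, hg'⟩ := hR P hP hrP
    refine ⟨fun g hg => ?_, AlgEquiv.restrictNormalHom M g',
      restrictNormalHom_mem_inertia K M Ω P g' hg'I, by rw [hb]; exact hg'⟩
    obtain ⟨g'', hI, rfl⟩ := exists_mem_inertia_restrictNormalHom_eq K M Ω P hP hP0 g hg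
    rw [ha]
    exact h1 g'' hI

end Fermat.Agent.S14.Crossing
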