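import Fermat.Agent.S14.Crossing.Field.Defs

/-!
# S14 / Crossing / block [C]: basic facts on `Gal(L(ζ_r)/K)` (leaf file: G2, G3, S1)
-/

set_option autoImplicit false

namespace Fermat.Agent.S14.Crossing

open NumberField
open scoped Pointwise

variable {p : ℕ} [Fact p.Prime]
  (K L : Type) [Field K] [NumberField K] [Field L] [NumberField L] [Algebra K L]
  [IsGalois K L] (r : ℕ) [NeZero r]

/-- (G2) An automorphism of `L(ζ_r)/K` which is trivial on `L` and has trivial cyclotomic
character is trivial. -/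
theorem eq_one_of_res_eq_one_of_cyc_eq_one
    (g : CyclotomicField r L ≃ₐ[K] CyclotomicField r L)
    (h1 : AlgEquiv.restrictNormalHom L g = 1) (h2 : cyc K L r g = 1) : g = 1 := by
  have hζ := IsCyclotomicExtension.zeta_spec r L (CyclotomicField r L)
  -- `g` fixes `L`
  have hL : ∀ x : L, g (algebraMap L (CyclotomicField r L) x) =
      algebraMap L (CyclotomicField r L) x := by
    intro x
    have h := AlgEquiv.restrictNormal_commutes g L x
    have h1' : g.restrictNormal L = 1 := h1
    rw [← h, h1']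
    rfl
  -- `g` fixes `ζ`
  have hz : g (IsCyclotomicExtension.zeta r L (CyclotomicField r L)) =
      IsCyclotomicExtension.zeta r L (CyclotomicField r L) := by
    have h := cyc_spec K L r g
    rw [h2, Units.val_one, ZMod.val_one_eq_one_mod] at h
    have h3 := pow_mod_orderOf (IsCyclotomicExtension.zeta r L (CyclotomicField r L)) 1
    rw [← hζ.eq_orderOf, pow_one] at h3
    rw [← h, h3]
  have htop : Algebra.adjoin L {IsCyclotomicExtension.zeta r L (CyclotomicField r L)} = ⊤ :=
    IsCyclotomicExtension.adjoin_primitive_root_eq_top hζ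
  ext y
  have hy : y ∈ Algebra.adjoin L {IsCyclotomicExtension.zeta r L (CyclotomicField r L)} := by
    rw [htop]
    trivial
  induction hy using Algebra.adjoin_induction with
  | mem x hx =>
    rw [Set.mem_singleton_iff] at hx
    rw [hx]
    exact hz
  | algebraMap x => exact hL x
  | add x y _ _ hx hy =>
    rw [map_add, hx, hy]
    rfl
  | mul x y _ _ hx hy =>
    rw [map_mul, hx, hy]
    rfl

/-- (G3) The `σ`-logarithm: `Gal(L/K)` has prime order `p` and `σ ≠ 1`, so there is an injective
character with `σ ↦ 1`. -/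
theorem exists_log (hdeg : Module.finrank K L = p) (σ : L ≃ₐ[K] L) (hσ : σ ≠ 1) :
    ∃ l : (L ≃ₐ[K] L) →* Multiplicative (ZMod p),
      Function.Injective l ∧ l σ = Multiplicative.ofAdd 1 := by
  have hcard : Nat.card (L ≃ₐ[K] L) = p := by
    rw [IsGalois.card_aut_eq_finrank, hdeg]
  have hgen : ∀ x : L ≃ₐ[K] L, x ∈ Subgroup.zpowers σ := fun x =>
    mem_zpowers_of_prime_card hcard hσ
  exact ⟨(zmodMulEquivOfGenerator hgen hcard).symm.toMonoidHom,
    (zmodMulEquivOfGenerator hgen hcard).symm.injective,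
    zmodMulEquivOfGenerator_symm_apply_generator hgen hcard⟩

/-- (S1) Above every natural number `n > 1` there is a prime of the number field `Ω`. -/
theorem exists_prime_natCast_mem (Ω : Type*) [Field Ω] [NumberField Ω] (n : ℕ) (hn : 1 < n) :
    ∃ P : Ideal (𝓞 Ω), P.IsPrime ∧ ((n : ℕ) : 𝓞 Ω) ∈ P := by
  have hne : Ideal.span {((n : ℕ) : 𝓞 Ω)} ≠ ⊤ := by
    intro htop
    have h1 : Ideal.absNorm (Ideal.span {((n : ℕ) : 𝓞 Ω)}) = 1 :=
      Ideal.absNorm_eq_one_iff.mpr htop
    rw [Ideal.absNorm_span_natCast] at h1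
    have hpos : 0 < Module.finrank ℤ (𝓞 Ω) := Module.finrank_pos
    have h2 : n ^ 1 ≤ n ^ Module.finrank ℤ (𝓞 Ω) := Nat.pow_le_pow_right (by omega) hpos
    rw [h1, pow_one] at h2
    omega
  obtain ⟨P, hP, hle⟩ := Ideal.exists_le_maximal _ hne
  exact ⟨P, hP.isPrime, hle (Ideal.subset_span (Set.mem_singleton _))⟩

end Fermat.Agent.S14.Crossing
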