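import Fermat.Agent.S14.Crossing.Field.Defs

/-!
# S14 / Crossing / block [C]: Frobenius elements of `L(ζ_r)/K` (leaf file: F1, F2)
-/

set_option autoImplicit false
set_option linter.unusedSectionVars false
set_option linter.unusedVariables false

namespace Fermat.Agent.S14.Crossing

open NumberField
open scoped Pointwise

variable {p : ℕ} [Fact p.Prime]
  (K L : Type) [Field K] [NumberField K] [Field L] [NumberField L] [Algebra K L]
  [IsGalois K L] (r : ℕ) [NeZero r] [IsGalois K (CyclotomicField r L)]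

/-- (F1) The restriction to `L` of a Frobenius of `L(ζ_r)/K` at `P` is `σ ^ e (P ∩ 𝓞 K)`. -/
theorem log_res_of_isArithFrobAt (hdeg : Module.finrank K L = p)
    (hunr : UnramifiedEverywhere K L)
    (σ : L ≃ₐ[K] L) (hσ : σ ≠ 1) (e : Ideal (𝓞 K) → ZMod p)
    (hfrob : ∀ q : Ideal (𝓞 K), q.IsPrime → q ≠ ⊥ →
      ∀ Q : Ideal (𝓞 L), Q.IsPrime → Q.LiesOver q →
        ∀ x : 𝓞 L, (σ ^ (e q).val) • x - x ^ Nat.card (𝓞 K ⧸ q) ∈ Q)
    (l : (L ≃ₐ[K] L) →* Multiplicative (ZMod p)) (hlσ : l σ = Multiplicative.ofAdd 1)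
    (P : Ideal (𝓞 (CyclotomicField r L))) (hP : P.IsPrime) (hP0 : P ≠ ⊥)
    (g : CyclotomicField r L ≃ₐ[K] CyclotomicField r L) (hg : IsArithFrobAt (𝓞 K) g P) :
    l (AlgEquiv.restrictNormalHom L g) = Multiplicative.ofAdd (e (P.under (𝓞 K))) := by
  have : IsGalois L (CyclotomicField r L) := IsCyclotomicExtension.isGalois {r} L _
  have hQprime : (P.under (𝓞 L)).IsPrime := Ideal.IsPrime.under (𝓞 L) P
  have hQ0 : P.under (𝓞 L) ≠ ⊥ := Ideal.under_ne_bot (𝓞 L) hP0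
  have hqQ : (P.under (𝓞 L)).under (𝓞 K) = P.under (𝓞 K) := Ideal.under_under P
  have hqprime : (P.under (𝓞 K)).IsPrime := Ideal.IsPrime.under (𝓞 K) P
  have hq0 : P.under (𝓞 K) ≠ ⊥ := Ideal.under_ne_bot (𝓞 K) hP0
  have hlies : (P.under (𝓞 L)).LiesOver (P.under (𝓞 K)) := ⟨hqQ.symm⟩
  -- (C1) the restriction of `g` is a Frobenius at `P ∩ 𝓞 L`
  have h1 : IsArithFrobAt (𝓞 K) (g.restrictNormal L) (P.under (𝓞 L)) :=
    Frob.isArithFrobAt_restrictNormal K L (CyclotomicField r L) P hP hg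
  -- (A2) so is `σ ^ e q`
  have h2 : IsArithFrobAt (𝓞 K) (σ ^ (e (P.under (𝓞 K))).val) (P.under (𝓞 L)) :=
    (Frob.isArithFrobAt_iff K L (σ ^ (e (P.under (𝓞 K))).val) (P.under (𝓞 K))
      (P.under (𝓞 L))).mpr
      (hfrob (P.under (𝓞 K)) hqprime hq0 (P.under (𝓞 L)) hQprime hlies)
  -- (A4) uniqueness of the Frobenius at the unramified prime `P ∩ 𝓞 L`
  have h3 : g.restrictNormal L = σ ^ (e (P.under (𝓞 K))).val :=
    Frob.isArithFrobAt_unique K L (P.under (𝓞 L)) (hunr (P.under (𝓞 L)) hQprime hQ0) h1 h2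
  have : NeZero p := ⟨(Fact.out : p.Prime).ne_zero⟩
  have h4 : AlgEquiv.restrictNormalHom L g = g.restrictNormal L := rfl
  rw [h4, h3, map_pow, hlσ, ← ofAdd_nsmul, nsmul_eq_mul, mul_one, ZMod.natCast_zmod_val]

/-- (F2) The cyclotomic character of a Frobenius at `P ∤ r` is the norm of `P ∩ 𝓞 K` mod `r`. -/
theorem cyc_of_isArithFrobAt
    (P : Ideal (𝓞 (CyclotomicField r L))) (hP : P.IsPrime)
    (hrP : ((r : ℕ) : 𝓞 (CyclotomicField r L)) ∉ P)
    (g : CyclotomicField r L ≃ₐ[K] CyclotomicField r L) (hg : IsArithFrobAt (𝓞 K) g P)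
    (u : (ZMod r)ˣ) (hu : (u : ZMod r) = (Nat.card (𝓞 K ⧸ P.under (𝓞 K)) : ZMod r)) :
    cyc K L r g = u := by
  have hζ : IsPrimitiveRoot (IsCyclotomicExtension.zeta r L (CyclotomicField r L)) r :=
    IsCyclotomicExtension.zeta_spec r L (CyclotomicField r L)
  -- (A15) the Frobenius raises `ζ_r` to the power `N(q)`
  have h1 : g (IsCyclotomicExtension.zeta r L (CyclotomicField r L)) =
      IsCyclotomicExtension.zeta r L (CyclotomicField r L) ^
        Nat.card (𝓞 K ⧸ P.under (𝓞 K)) :=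
    Frob.isArithFrobAt_apply_of_pow_eq_one K (CyclotomicField r L) P hP hg
      (IsCyclotomicExtension.zeta r L (CyclotomicField r L)) r hζ.pow_eq_one hrP
  have h2 := cyc_spec K L r g
  rw [h1] at h2
  rw [pow_eq_pow_mod (Nat.card (𝓞 K ⧸ P.under (𝓞 K))) hζ.pow_eq_one] at h2
  have h3 : ((cyc K L r g : (ZMod r)ˣ) : ZMod r).val =
      Nat.card (𝓞 K ⧸ P.under (𝓞 K)) % r :=
    hζ.pow_inj (ZMod.val_lt _) (Nat.mod_lt _ (NeZero.pos r)) h2
  have h5 : (((cyc K L r g : (ZMod r)ˣ) : ZMod r).val : ZMod r) =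
      (Nat.card (𝓞 K ⧸ P.under (𝓞 K)) : ZMod r) := by
    rw [h3, ZMod.natCast_mod]
  rw [ZMod.natCast_zmod_val] at h5
  exact Units.ext (h5.trans hu.symm)

end Fermat.Agent.S14.Crossing
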