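import Fermat.Agent.S14.Crossing.Field.Tower

/-!
# S14 / Crossing / block [C]: inertia groups of `L(ζ_r)/K` (leaf file: I1, I2)
-/

set_option autoImplicit false
set_option linter.unusedSectionVars false

namespace Fermat.Agent.S14.Crossing

open NumberField
open scoped Pointwise

variable (K L : Type) [Field K] [NumberField K] [Field L] [NumberField L] [Algebra K L]
  [IsGalois K L] (r : ℕ) [NeZero r] [IsGalois K (CyclotomicField r L)]

/-- Restriction to `L` maps the inertia group of `P` in `L(ζ_r)/K` into the inertia group of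
`P ∩ 𝓞 L` in `L/K` (direct proof). -/
theorem OmInertia.aux_restrict_mem_inertia
    (P : Ideal (𝓞 (CyclotomicField r L)))
    (g : CyclotomicField r L ≃ₐ[K] CyclotomicField r L)
    (hg : g ∈ P.inertia (CyclotomicField r L ≃ₐ[K] CyclotomicField r L)) :
    AlgEquiv.restrictNormalHom L g ∈ (P.under (𝓞 L)).inertia (L ≃ₐ[K] L) := by
  refine AddSubgroup.mem_inertia.mpr fun y => ?_
  show algebraMap (𝓞 L) (𝓞 (CyclotomicField r L)) (AlgEquiv.restrictNormalHom L g • y - y) ∈ P
  have h : algebraMap (𝓞 L) (𝓞 (CyclotomicField r L)) (AlgEquiv.restrictNormalHom L g • y - y)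
      = g • algebraMap (𝓞 L) (𝓞 (CyclotomicField r L)) y
        - algebraMap (𝓞 L) (𝓞 (CyclotomicField r L)) y := by
    rw [map_sub]
    congr 1
    apply RingOfIntegers.ext
    exact AlgEquiv.restrictNormal_commutes g L (y : L)
  rw [h]
  exact AddSubgroup.mem_inertia.mp hg _

/-- (I1) `L/K` unramified everywhere: inertia elements of `L(ζ_r)/K` restrict trivially to `L`. -/
theorem res_eq_one_of_mem_inertia (hunr : UnramifiedEverywhere K L)
    (P : Ideal (𝓞 (CyclotomicField r L))) (hP : P.IsPrime) (hP0 : P ≠ ⊥)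
    (g : CyclotomicField r L ≃ₐ[K] CyclotomicField r L)
    (hg : g ∈ P.inertia (CyclotomicField r L ≃ₐ[K] CyclotomicField r L)) :
    AlgEquiv.restrictNormalHom L g = 1 := by
  have hprime : (P.under (𝓞 L)).IsPrime := hP.under _
  have hne : P.under (𝓞 L) ≠ ⊥ := Ideal.under_ne_bot (𝓞 L) hP0
  have hmem := OmInertia.aux_restrict_mem_inertia K L r P g hg
  have hbot : (P.under (𝓞 L)).inertia (L ≃ₐ[K] L) = ⊥ := hunr (P.under (𝓞 L)) hprime hne
  rw [hbot] at hmem
  exact Subgroup.mem_bot.mp hmem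

/-- (I2) Inertia elements at primes not above `r` fix `ζ_r` (`r` prime). -/
theorem cyc_eq_one_of_mem_inertia (hr : r.Prime)
    (P : Ideal (𝓞 (CyclotomicField r L))) (hP : P.IsPrime)
    (hrP : ((r : ℕ) : 𝓞 (CyclotomicField r L)) ∉ P)
    (g : CyclotomicField r L ≃ₐ[K] CyclotomicField r L)
    (hg : g ∈ P.inertia (CyclotomicField r L ≃ₐ[K] CyclotomicField r L)) :
    cyc K L r g = 1 := by
  have hζ : IsPrimitiveRoot (IsCyclotomicExtension.zeta r L (CyclotomicField r L)) r :=
    IsCyclotomicExtension.zeta_spec r L (CyclotomicField r L)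
  obtain ⟨ζ', hζ'def⟩ : ∃ ζ' : 𝓞 (CyclotomicField r L), ζ' = hζ.toInteger := ⟨_, rfl⟩
  have hζ' : IsPrimitiveRoot ζ' r := hζ'def ▸ hζ.toInteger_isPrimitiveRoot
  obtain ⟨c, hc⟩ : ∃ c : ℕ, c = ((cyc K L r g : (ZMod r)ˣ) : ZMod r).val := ⟨_, rfl⟩
  have hgζ : g • ζ' = ζ' ^ c := by
    apply RingOfIntegers.ext
    have h := cyc_spec K L r g
    rw [← hc] at h
    rw [hζ'def]
    exact h.symm
  have h1 : ζ' ^ c - ζ' ∈ P := by
    have := AddSubgroup.mem_inertia.mp hg ζ'
    rwa [hgζ] at this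
  have hc1 : c = 1 := by
    by_contra hne
    have hcpos : c ≠ 0 := by
      intro h0
      rw [hc] at h0
      have : Fact (1 < r) := ⟨hr.one_lt⟩
      exact (Units.ne_zero _) ((ZMod.val_eq_zero _).mp h0)
    have hclt : c < r := hc ▸ ZMod.val_lt _
    obtain ⟨d, rfl⟩ : ∃ d, c = d + 1 := Nat.exists_eq_succ_of_ne_zero hcpos
    have hd0 : d ≠ 0 := by omega
    have hdlt : d < r := by omega
    have hcop : d.Coprime r := by
      refine Nat.Coprime.symm ((Nat.Prime.coprime_iff_not_dvd hr).mpr ?_)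
      exact Nat.not_dvd_of_pos_of_lt (Nat.pos_of_ne_zero hd0) hdlt
    have hη : IsPrimitiveRoot (ζ' ^ d) r := hζ'.pow_of_coprime d hcop
    have h2 : ζ' * (ζ' ^ d - 1) ∈ P := by
      have : ζ' * (ζ' ^ d - 1) = ζ' ^ (d + 1) - ζ' := by ring
      rw [this]; exact h1
    have hζP : ζ' ∉ P := by
      intro hmem
      have : ζ' ^ r ∈ P := P.pow_mem_of_mem hmem r (NeZero.pos r)
      rw [hζ'.pow_eq_one] at this
      exact hP.ne_top ((Ideal.eq_top_iff_one P).mpr this)
    have h3 : ζ' ^ d - 1 ∈ P := (hP.mem_or_mem h2).resolve_left hζP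
    have hη1 : Ideal.Quotient.mk P (ζ' ^ d) = 1 := by
      have := Ideal.Quotient.eq_zero_iff_mem.mpr h3
      rwa [map_sub, map_one, sub_eq_zero] at this
    have hsum := congrArg (Ideal.Quotient.mk P) (hη.geom_sum_eq_zero hr.one_lt)
    rw [map_sum] at hsum
    simp only [map_pow, hη1, one_pow, Finset.sum_const, Finset.card_range, map_zero,
      nsmul_eq_mul, mul_one] at hsum
    apply hrP
    rw [← Ideal.Quotient.eq_zero_iff_mem, map_natCast]
    exact hsum
  apply Units.ext
  have h := ZMod.natCast_zmod_val ((cyc K L r g : (ZMod r)ˣ) : ZMod r)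
  rw [← hc, hc1] at h
  rw [← h]
  simp

end Fermat.Agent.S14.Crossing
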