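import Fermat.Agent.S14.Crossing.Field.OmPow
import Fermat.Agent.S14.Frob.Extra

/-!
# S14 / Crossing / block [C]: the inertia group of `L(ζ_r)/K` at a prime above `r` has at least
`r - 1` elements (leaf file: R1)
-/

set_option autoImplicit false

namespace Fermat.Agent.S14.Crossing

open NumberField
open scoped Pointwise

/-- A prime of a number field containing the rational prime `r` lies over `(r)`. -/
theorem OmRamCount.aux_liesOver (M : Type*) [Field M] [NumberField M] (r : ℕ) (hr : r.Prime)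
    (Q : Ideal (𝓞 M)) (hQ : Q.IsPrime) (hrQ : ((r : ℕ) : 𝓞 M) ∈ Q) :
    Q.LiesOver (Ideal.span {(r : ℤ)}) := by
  have : Fact r.Prime := ⟨hr⟩
  have hmax : (Ideal.span {(r : ℤ)}).IsMaximal := Int.ideal_span_isMaximal_of_prime r
  have hle : Ideal.span {(r : ℤ)} ≤ Q.under ℤ := by
    rw [Ideal.span_singleton_le_iff_mem, Ideal.under_def, Ideal.mem_comap]
    simpa using hrQ
  have hne : Q.under ℤ ≠ ⊤ := (Ideal.IsPrime.under ℤ Q).ne_top
  exact ⟨hmax.eq_of_le hne hle⟩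

/-- `e(Q | r) ≥ k` if `r ∈ Q ^ k`. -/
theorem OmRamCount.aux_le_ramificationIdx (M : Type*) [Field M] [NumberField M] (r : ℕ)
    (hr : r.Prime) (Q : Ideal (𝓞 M)) (hQ : Q.IsPrime) (hrQ : ((r : ℕ) : 𝓞 M) ∈ Q) (k : ℕ)
    (hk : ((r : ℕ) : 𝓞 M) ∈ Q ^ k) : k ≤ Q.ramificationIdx ℤ := by
  have := OmRamCount.aux_liesOver M r hr Q hQ hrQ
  have hmap : Ideal.map (algebraMap ℤ (𝓞 M)) (Ideal.span {(r : ℤ)}) =
      Ideal.span {((r : ℕ) : 𝓞 M)} := by
    rw [Ideal.map_span, Set.image_singleton]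
    simp
  have hne : Ideal.span {((r : ℕ) : 𝓞 M)} ≠ ⊥ := by
    rw [Ne, Ideal.span_singleton_eq_bot]
    exact_mod_cast hr.ne_zero
  rw [Ideal.IsDedekindDomain.ramificationIdx_eq_multiplicity (Ideal.span {(r : ℤ)}) Q
    (by rw [hmap]; exact hne), hmap]
  apply FiniteMultiplicity.le_multiplicity_of_pow_dvd
  · exact FiniteMultiplicity.of_not_isUnit (by rw [Ideal.isUnit_iff]; exact hQ.ne_top) hne
  · rw [Ideal.dvd_iff_le, Ideal.span_singleton_le_iff_mem]
    exact hk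

variable {p : ℕ} [Fact p.Prime]
  (K L : Type) [Field K] [NumberField K] [Field L] [NumberField L] [Algebra K L]
  [IsCyclotomicExtension {p} ℚ K] (r : ℕ) [NeZero r] [IsGalois K (CyclotomicField r L)]

/-- (R1) `K = ℚ(ζ_p)` is unramified at `r ≠ p`, and `r ∈ P ^ (r - 1)`; hence
`|I_P(Ω/K)| = e(P | P ∩ 𝓞 K) = e(P | r) ≥ r - 1`. -/
theorem le_card_inertia (hr : r.Prime) (hrp : r ≠ p)
    (P : Ideal (𝓞 (CyclotomicField r L))) (hP : P.IsPrime)
    (hrP : ((r : ℕ) : 𝓞 (CyclotomicField r L)) ∈ P) :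
    r - 1 ≤ Nat.card (P.inertia (CyclotomicField r L ≃ₐ[K] CyclotomicField r L)) := by
  have hp : p.Prime := Fact.out
  have : Fact r.Prime := ⟨hr⟩
  have hP0 : P ≠ ⊥ := by
    rintro rfl
    rw [Ideal.mem_bot] at hrP
    exact hr.ne_zero (by exact_mod_cast hrP)
  rw [Frob.card_inertia_eq_ramificationIdx K (CyclotomicField r L) P hP hP0]
  -- the prime `𝔮 = P ∩ 𝓞 K` below `P`
  have hqprime : (P.under (𝓞 K)).IsPrime := Ideal.IsPrime.under (𝓞 K) P
  have hrq : ((r : ℕ) : 𝓞 K) ∈ P.under (𝓞 K) := by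
    rw [Ideal.under_def, Ideal.mem_comap]
    simpa using hrP
  have := OmRamCount.aux_liesOver K r hr (P.under (𝓞 K)) hqprime hrq
  -- `K = ℚ(ζ_p)` is unramified at `r`
  have h1 : (P.under (𝓞 K)).ramificationIdx ℤ = 1 :=
    IsCyclotomicExtension.Rat.ramificationIdx_eq_of_not_dvd r K (P.under (𝓞 K)) (m := p)
      (fun h => hrp ((Nat.prime_dvd_prime_iff_eq hr hp).mp h))
  -- multiplicativity in the tower `ℤ ⊆ 𝓞 K ⊆ 𝓞 Ω`
  have htower := Ideal.ramificationIdx_tower (R := ℤ) (P.under (𝓞 K)) P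
  -- `e(P | r) ≥ r - 1`
  have hge := OmRamCount.aux_le_ramificationIdx (CyclotomicField r L) r hr P hP hrP (r - 1)
    (natCast_mem_pow_sub_one (CyclotomicField r L) r hr _
      (IsCyclotomicExtension.zeta_spec r L (CyclotomicField r L)) P hP hrP)
  rw [htower, h1, one_mul] at hge
  exact hge

end Fermat.Agent.S14.Crossing
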