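import Fermat.Agent.S14.Crossing.Field.OmGalois
import Fermat.Agent.S14.Crossing.Field.OmBasic
import Fermat.Agent.S14.Crossing.Field.OmInertia
import Fermat.Agent.S14.Crossing.Field.OmFrob
import Fermat.Agent.S14.Crossing.Field.OmRamCount

/-!
# S14 / Crossing / block [C]: the `Ω`-level statement for `Ω = L(ζ_r)` (assembly)

`ã := l ∘ res_L`, `b̃ := χ ∘ cyc` on `Gal(Ω/K)`:
* `(ã, b̃)` is jointly surjective;
* at primes `P ∤ r`: `Ω/K` is unramified, Frobenius elements have `ã = e (P ∩ 𝓞 K)` and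
  `b̃ = χ (N(P ∩ 𝓞 K) mod r)`;
* at primes `P ∣ r`: `ã` is trivial on inertia, `b̃` is not.
-/

set_option autoImplicit false

namespace Fermat.Agent.S14.Crossing

open NumberField
open scoped Pointwise

variable {p : ℕ} [Fact p.Prime]
  (K L : Type) [Field K] [NumberField K] [Field L] [NumberField L] [Algebra K L]
  [IsCyclotomicExtension {p} ℚ K] [IsGalois K L] (r : ℕ) [NeZero r]
  [IsGalois K (CyclotomicField r L)]

omit [Fact p.Prime] [IsCyclotomicExtension {p} ℚ K] [IsGalois K L] [IsGalois K (CyclotomicField r L)] in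
theorem OmMain.aux_ne_bot (hr : r.Prime) (P : Ideal (𝓞 (CyclotomicField r L)))
    (hrP : ((r : ℕ) : 𝓞 (CyclotomicField r L)) ∈ P) : P ≠ ⊥ := by
  rintro rfl
  have h0 : ((r : ℕ) : 𝓞 (CyclotomicField r L)) = 0 := by simpa using hrP
  exact hr.ne_zero (by exact_mod_cast h0)

/-- (R2) The cyclotomic character maps the inertia group at a prime above `r` onto `(ZMod r)ˣ`. -/
theorem exists_mem_inertia_cyc_eq (hunr : UnramifiedEverywhere K L) (hr : r.Prime) (hrp : r ≠ p)
    (P : Ideal (𝓞 (CyclotomicField r L))) (hP : P.IsPrime)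
    (hrP : ((r : ℕ) : 𝓞 (CyclotomicField r L)) ∈ P) (u : (ZMod r)ˣ) :
    ∃ g ∈ P.inertia (CyclotomicField r L ≃ₐ[K] CyclotomicField r L), cyc K L r g = u := by
  have hP0 : P ≠ ⊥ := OmMain.aux_ne_bot L r hr P hrP
  let f : P.inertia (CyclotomicField r L ≃ₐ[K] CyclotomicField r L) →* (ZMod r)ˣ :=
    (cyc K L r).comp (Subgroup.subtype _)
  have hf : Function.Injective f := by
    rw [injective_iff_map_eq_one]
    intro g hg
    have h1 := res_eq_one_of_mem_inertia K L r hunr P hP hP0 g.1 g.2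
    have h2 : cyc K L r g.1 = 1 := hg
    exact Subtype.ext (eq_one_of_res_eq_one_of_cyc_eq_one K L r g.1 h1 h2)
  have hcard : Nat.card (ZMod r)ˣ ≤
      Nat.card (P.inertia (CyclotomicField r L ≃ₐ[K] CyclotomicField r L)) := by
    have : Fact r.Prime := ⟨hr⟩
    rw [Nat.card_eq_fintype_card, ZMod.card_units_eq_totient, Nat.totient_prime hr]
    exact le_card_inertia K L r hr hrp P hP hrP
  obtain ⟨g, hg⟩ := (Function.Injective.bijective_of_nat_card_le hf hcard).2 u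
  exact ⟨g.1, g.2, hg⟩

omit [IsCyclotomicExtension {p} ℚ K] [IsGalois K L] [IsGalois K (CyclotomicField r L)] [NumberField K] [Field K] [Field L] [NumberField L] [Algebra K L] [NeZero r] in
theorem OmMain.aux_ofAdd_one_pow (x : Multiplicative (ZMod p)) :
    (Multiplicative.ofAdd (1 : ZMod p)) ^ (Multiplicative.toAdd x).val = x := by
  have hp : p.Prime := Fact.out
  have : NeZero p := ⟨hp.ne_zero⟩
  rw [← ofAdd_nsmul, nsmul_eq_mul, mul_one, ZMod.natCast_zmod_val]
  rfl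

/-- The `Ω`-level statement. -/
theorem omega_main (hunr : UnramifiedEverywhere K L) (hdeg : Module.finrank K L = p)
    (σ : L ≃ₐ[K] L) (hσ : σ ≠ 1) (e : Ideal (𝓞 K) → ZMod p)
    (hfrob : ∀ q : Ideal (𝓞 K), q.IsPrime → q ≠ ⊥ →
      ∀ Q : Ideal (𝓞 L), Q.IsPrime → Q.LiesOver q →
        ∀ x : 𝓞 L, (σ ^ (e q).val) • x - x ^ Nat.card (𝓞 K ⧸ q) ∈ Q)
    (hr : r.Prime) (hrp : r ≠ p)
    (χ : (ZMod r)ˣ →* Multiplicative (ZMod p)) (hχ : Function.Surjective χ)
    (l : (L ≃ₐ[K] L) →* Multiplicative (ZMod p)) (hlσ : l σ = Multiplicative.ofAdd 1) :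
    (∀ u v : Multiplicative (ZMod p),
      ∃ g : CyclotomicField r L ≃ₐ[K] CyclotomicField r L,
        (l.comp (AlgEquiv.restrictNormalHom L)) g = u ∧ (χ.comp (cyc K L r)) g = v) ∧
    (∀ P : Ideal (𝓞 (CyclotomicField r L)), P.IsPrime → P ≠ ⊥ →
      ((r : ℕ) : 𝓞 (CyclotomicField r L)) ∉ P →
        UnramifiedAt K (CyclotomicField r L) P ∧
        ∀ g : CyclotomicField r L ≃ₐ[K] CyclotomicField r L, IsArithFrobAt (𝓞 K) g P →
          (l.comp (AlgEquiv.restrictNormalHom L)) g =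
              Multiplicative.ofAdd (e (P.under (𝓞 K))) ∧
          ∀ u : (ZMod r)ˣ, (u : ZMod r) = (Nat.card (𝓞 K ⧸ P.under (𝓞 K)) : ZMod r) →
            (χ.comp (cyc K L r)) g = χ u) ∧
    (∀ P : Ideal (𝓞 (CyclotomicField r L)), P.IsPrime →
      ((r : ℕ) : 𝓞 (CyclotomicField r L)) ∈ P →
        (∀ g ∈ P.inertia (CyclotomicField r L ≃ₐ[K] CyclotomicField r L),
          (l.comp (AlgEquiv.restrictNormalHom L)) g = 1) ∧
        ∃ g ∈ P.inertia (CyclotomicField r L ≃ₐ[K] CyclotomicField r L),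
          (χ.comp (cyc K L r)) g ≠ 1) := by
  have hp : p.Prime := Fact.out
  have h1ne : Multiplicative.ofAdd (1 : ZMod p) ≠ 1 := by
    intro h
    have h' : (1 : ZMod p) = 0 := h
    exact one_ne_zero h'
  -- the ramified part
  have hR : ∀ P : Ideal (𝓞 (CyclotomicField r L)), P.IsPrime →
      ((r : ℕ) : 𝓞 (CyclotomicField r L)) ∈ P →
        (∀ g ∈ P.inertia (CyclotomicField r L ≃ₐ[K] CyclotomicField r L),
          (l.comp (AlgEquiv.restrictNormalHom L)) g = 1) ∧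
        ∃ g ∈ P.inertia (CyclotomicField r L ≃ₐ[K] CyclotomicField r L),
          cyc K L r g ∈ χ ⁻¹' {Multiplicative.ofAdd (1 : ZMod p)} := by
    intro P hP hrP
    have hP0 : P ≠ ⊥ := OmMain.aux_ne_bot L r hr P hrP
    refine ⟨fun g hg => ?_, ?_⟩
    · rw [MonoidHom.comp_apply, res_eq_one_of_mem_inertia K L r hunr P hP hP0 g hg, map_one]
    · obtain ⟨u₀, hu₀⟩ := hχ (Multiplicative.ofAdd 1)
      obtain ⟨g, hgI, hg⟩ := exists_mem_inertia_cyc_eq K L r hunr hr hrp P hP hrP u₀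
      exact ⟨g, hgI, by rw [hg]; exact hu₀⟩
  refine ⟨?_, ?_, ?_⟩
  · -- joint surjectivity
    intro u v
    obtain ⟨P₀, hP₀, hrP₀⟩ :=
      exists_prime_natCast_mem (CyclotomicField r L) r hr.one_lt
    obtain ⟨hR1, g₀, hg₀I, hg₀⟩ := hR P₀ hP₀ hrP₀
    have ha0 := hR1 g₀ hg₀I
    have hb0 : χ (cyc K L r g₀) = Multiplicative.ofAdd 1 := hg₀
    obtain ⟨g₁, hg₁⟩ := AlgEquiv.restrictNormalHom_surjective (F := K) (K₁ := L)
      (CyclotomicField r L) σ
    have ha1 : l (AlgEquiv.restrictNormalHom L g₁) = Multiplicative.ofAdd 1 := by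
      rw [hg₁, hlσ]
    set m := (Multiplicative.toAdd u).val with hm
    set w := χ (cyc K L r g₁) with hw
    set k := (Multiplicative.toAdd (v / w ^ m)).val with hk
    refine ⟨g₁ ^ m * g₀ ^ k, ?_, ?_⟩
    · rw [MonoidHom.comp_apply] at ha0
      rw [MonoidHom.comp_apply, map_mul, map_mul, map_pow, map_pow, map_pow, map_pow, ha1, ha0,
        one_pow, mul_one, hm, OmMain.aux_ofAdd_one_pow]
    · rw [MonoidHom.comp_apply, map_mul, map_mul, map_pow, map_pow, map_pow, map_pow, hb0, ← hw,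
        hk, OmMain.aux_ofAdd_one_pow, mul_div_cancel]
  · -- unramified part
    intro P hP hP0 hrP
    refine ⟨?_, fun g hg => ⟨?_, fun u hu => ?_⟩⟩
    · unfold UnramifiedAt
      rw [Subgroup.eq_bot_iff_forall]
      intro g hg
      exact eq_one_of_res_eq_one_of_cyc_eq_one K L r g
        (res_eq_one_of_mem_inertia K L r hunr P hP hP0 g hg)
        (cyc_eq_one_of_mem_inertia K L r hr P hP hrP g hg)
    · rw [MonoidHom.comp_apply]
      exact log_res_of_isArithFrobAt K L r hdeg hunr σ hσ e hfrob l hlσ P hP hP0 g hg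
    · rw [MonoidHom.comp_apply, cyc_of_isArithFrobAt K L r P hP hrP g hg u hu]
  · intro P hP hrP
    obtain ⟨h1, g, hgI, hg⟩ := hR P hP hrP
    refine ⟨h1, g, hgI, ?_⟩
    rw [MonoidHom.comp_apply]
    have : χ (cyc K L r g) = Multiplicative.ofAdd 1 := hg
    rw [this]
    exact h1ne

end Fermat.Agent.S14.Crossing
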