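import Fermat.Agent.S14.Frob.API

/-!
# S14 / Crossing / block [C] (the crossing field; block architect helper7): definitions

`Ω := CyclotomicField r L = L(ζ_r)`, viewed as a `K`-algebra through Mathlib's instances
`Algebra K (CyclotomicField r L)`, `IsScalarTower K L (CyclotomicField r L)`.
`cyc K L r : Gal(Ω/K) →* (ZMod r)ˣ` is the cyclotomic character (`g ζ_r = ζ_r ^ cyc g`).
-/

set_option autoImplicit false

namespace Fermat.Agent.S14.Crossing

open NumberField
open scoped Pointwise

variable (K L : Type) [Field K] [Field L] [Algebra K L] (r : ℕ) [NeZero r] [CharZero L]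

/-- The cyclotomic character of `Ω = L(ζ_r)` over `K`. -/
noncomputable def cyc :
    (CyclotomicField r L ≃ₐ[K] CyclotomicField r L) →* (ZMod r)ˣ :=
  (IsCyclotomicExtension.zeta_spec r L (CyclotomicField r L)).autToPow K

theorem cyc_spec (g : CyclotomicField r L ≃ₐ[K] CyclotomicField r L) :
    IsCyclotomicExtension.zeta r L (CyclotomicField r L) ^ ((cyc K L r g : (ZMod r)ˣ) : ZMod r).val
      = g (IsCyclotomicExtension.zeta r L (CyclotomicField r L)) :=
  (IsCyclotomicExtension.zeta_spec r L (CyclotomicField r L)).autToPow_spec K g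

end Fermat.Agent.S14.Crossing
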