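import Fermat.Agent.S14.Crossing.Field.Defs

/-!
# S14 / Crossing / block [C]: `Ω = L(ζ_r)` is Galois over `K` (leaf file: G1)
-/

set_option autoImplicit false

namespace Fermat.Agent.S14.Crossing

open NumberField

variable (K L : Type) [Field K] [NumberField K] [Field L] [NumberField L] [Algebra K L]
  [IsGalois K L] (r : ℕ) [NeZero r]

/-- (G1) `L(ζ_r)/K` is Galois when `L/K` is. -/
theorem isGalois_Om : IsGalois K (CyclotomicField r L) := by
  have hfin : FiniteDimensional K L := Module.Finite.of_restrictScalars_finite ℚ K L
  obtain ⟨f, hfsep, hfsplit⟩ := IsGalois.is_separable_splitting_field K L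
  have hf0 : f ≠ 0 := hfsep.ne_zero
  have hg0 : (Polynomial.X ^ r - 1 : Polynomial K) ≠ 0 := by
    have := Polynomial.X_pow_sub_C_ne_zero (NeZero.pos r) (1 : K)
    simpa using this
  have hsplit2 : Polynomial.IsSplittingField L (CyclotomicField r L)
      ((Polynomial.X ^ r - 1 : Polynomial K).map (algebraMap K L)) := by
    have h := IsCyclotomicExtension.isSplittingField_X_pow_sub_one r L (CyclotomicField r L)
    have hmap : (Polynomial.X ^ r - 1 : Polynomial K).map (algebraMap K L) =
        (Polynomial.X ^ r - 1 : Polynomial L) := by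
      simp
    rw [hmap]
    exact h
  have hsplit3 : Polynomial.IsSplittingField K (CyclotomicField r L)
      (f * (Polynomial.X ^ r - 1)) :=
    Polynomial.IsSplittingField.mul (K := L) (CyclotomicField r L) f (Polynomial.X ^ r - 1)
      hf0 hg0
  have hnormal : Normal K (CyclotomicField r L) :=
    Normal.of_isSplittingField (f * (Polynomial.X ^ r - 1))
  exact isGalois_iff.mpr ⟨inferInstance, hnormal⟩

end Fermat.Agent.S14.Crossing
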