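import Fermat.Agent.S14.Crossing.Field.Defs

/-!
# S14 / Crossing / block [C]: `r ∈ P ^ (r - 1)` for a prime `P ∣ r` of a field containing `ζ_r`
(leaf file: R1a)
-/

set_option autoImplicit false

namespace Fermat.Agent.S14.Crossing

open NumberField

/-- (R1a) If the number field `Ω` contains a primitive `r`-th root of unity (`r` prime) and `P` is
a prime of `Ω` above `r`, then `r ∈ P ^ (r - 1)`  (`r = ∏_{j=1}^{r-1} (1 - ζ^j)`, each factor in
`P`). -/
theorem natCast_mem_pow_sub_one (Ω : Type*) [Field Ω] [NumberField Ω] (r : ℕ) (hr : r.Prime)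
    (ζ : Ω) (hζ : IsPrimitiveRoot ζ r) (P : Ideal (𝓞 Ω)) (hP : P.IsPrime)
    (hrP : ((r : ℕ) : 𝓞 Ω) ∈ P) : ((r : ℕ) : 𝓞 Ω) ∈ P ^ (r - 1) := by
  obtain ⟨n, rfl⟩ : ∃ n, r = n + 1 := ⟨r - 1, (Nat.sub_add_cancel hr.pos).symm⟩
  -- `ζ` as an element `z` of the ring of integers
  have hz : IsPrimitiveRoot hζ.toInteger (n + 1) := hζ.toInteger_isPrimitiveRoot
  generalize hζ.toInteger = z at hz
  -- the product formula `n + 1 = ∏_{k < n} (1 - z ^ (k + 1))`
  have hprod : ∏ k ∈ Finset.range n, (1 - z ^ (k + 1)) = ((n + 1 : ℕ) : 𝓞 Ω) := by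
    rw [hz.prod_one_sub_pow_eq_order]
    push_cast
    rfl
  -- Step 1: some factor lies in `P`
  rw [← hprod] at hrP
  obtain ⟨j0, hj0, hj0P⟩ := hP.prod_mem_iff.mp hrP
  -- Step 2: `z - 1 ∈ P`
  have hcop : (j0 + 1).Coprime (n + 1) := by
    refine Nat.Coprime.symm ((Nat.Prime.coprime_iff_not_dvd hr).mpr ?_)
    exact Nat.not_dvd_of_pos_of_lt (Nat.succ_pos _) (by simpa using hj0)
  have h1 : z - 1 ∈ P := by
    obtain ⟨c, hc⟩ := (hz.associated_sub_one_pow_sub_one_of_coprime hcop).symm.dvd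
    rw [hc]
    refine P.mul_mem_right _ ?_
    have h2 := P.neg_mem hj0P
    rwa [neg_sub] at h2
  -- Step 3: every factor lies in `P`
  have hfac : ∀ k ∈ Finset.range n, (1 - z ^ (k + 1)) ∈ P := by
    intro k _
    have h3 : 1 - z ^ (k + 1) = -((z - 1) * ∑ i ∈ Finset.range (k + 1), z ^ i) := by
      rw [mul_geom_sum, neg_sub]
    rw [h3]
    exact P.neg_mem (P.mul_mem_right _ h1)
  -- Step 4: the product lies in `P ^ n`
  have h4 := Ideal.prod_mem_prod (I := fun _ : ℕ => P) hfac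
  rw [Finset.prod_const, Finset.card_range, hprod] at h4
  rwa [Nat.add_sub_cancel]

end Fermat.Agent.S14.Crossing
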