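import Fermat.Agent.S14.Crossing.Field.Defs

/-!
# S14 / Crossing / block [C]: generic facts for a tower `K ⊆ M ⊆ Ω` of number fields,
`Ω/K` and `M/K` Galois (leaf file: T1, T2, T4)
-/

set_option autoImplicit false
set_option linter.unusedSectionVars false

namespace Fermat.Agent.S14.Crossing

open NumberField
open scoped Pointwise

variable (K M Ω : Type*) [Field K] [NumberField K] [Field M] [NumberField M]
  [Field Ω] [NumberField Ω] [Algebra K M] [Algebra M Ω] [Algebra K Ω] [IsScalarTower K M Ω]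
  [IsGalois K Ω] [IsGalois K M] [IsGalois M Ω]

/-- (T1) Every prime of `M` has a prime of `Ω` above it. -/
theorem exists_prime_under_eq (Q : Ideal (𝓞 M)) (hQ : Q.IsPrime) :
    ∃ P : Ideal (𝓞 Ω), P.IsPrime ∧ P.under (𝓞 M) = Q := by
  have := hQ
  obtain ⟨⟨P, hP, hPQ⟩⟩ := Q.nonempty_primesOver (S := 𝓞 Ω)
  exact ⟨P, hP, hPQ.over.symm⟩

/-- (T2) Inertia restricts: the restriction to `M` of an element of the inertia group of `P`
in `Ω/K` lies in the inertia group of `P ∩ 𝓞 M` in `M/K`. -/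
theorem restrictNormalHom_mem_inertia (P : Ideal (𝓞 Ω)) (g : Ω ≃ₐ[K] Ω)
    (hg : g ∈ P.inertia (Ω ≃ₐ[K] Ω)) :
    AlgEquiv.restrictNormalHom M g ∈ (P.under (𝓞 M)).inertia (M ≃ₐ[K] M) := by
  intro x
  have h : g • algebraMap (𝓞 M) (𝓞 Ω) x - algebraMap (𝓞 M) (𝓞 Ω) x ∈ P :=
    hg (algebraMap (𝓞 M) (𝓞 Ω) x)
  have e : algebraMap (𝓞 M) (𝓞 Ω) (AlgEquiv.restrictNormalHom M g • x) =
      g • algebraMap (𝓞 M) (𝓞 Ω) x := by
    apply RingOfIntegers.ext
    exact AlgEquiv.restrictNormal_commutes g M (x : M)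
  show AlgEquiv.restrictNormalHom M g • x - x ∈ Ideal.comap (algebraMap (𝓞 M) (𝓞 Ω)) P
  rw [Ideal.mem_comap, map_sub, e]
  exact h

/-- (T4) Frobenius elements lift: if `M/K` is unramified at `P ∩ 𝓞 M`, every Frobenius of `M/K`
at `P ∩ 𝓞 M` is the restriction of a Frobenius of `Ω/K` at `P`. -/
theorem exists_isArithFrobAt_restrictNormalHom_eq (P : Ideal (𝓞 Ω)) (hP : P.IsPrime) (hP0 : P ≠ ⊥)
    (hunr : UnramifiedAt K M (P.under (𝓞 M)))
    (g : M ≃ₐ[K] M) (hg : IsArithFrobAt (𝓞 K) g (P.under (𝓞 M))) :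
    ∃ g' : Ω ≃ₐ[K] Ω, IsArithFrobAt (𝓞 K) g' P ∧ AlgEquiv.restrictNormalHom M g' = g := by
  obtain ⟨g', hg'⟩ := Frob.exists_isArithFrobAt K Ω P hP hP0
  refine ⟨g', hg', ?_⟩
  have h1 : IsArithFrobAt (𝓞 K) (g'.restrictNormal M) (P.under (𝓞 M)) :=
    Frob.isArithFrobAt_restrictNormal K M Ω P hP hg'
  exact Frob.isArithFrobAt_unique K M (P.under (𝓞 M)) hunr h1 hg

end Fermat.Agent.S14.Crossing
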